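import Fermat.Prelude.Def_ModularCurve_ArithmeticGalois
import Fermat.Prelude.Def_ModularCurve_X0ModL
import Mathlib

/-!
# T24 / AN1-CUSP(Qbar), file (0): generators of `modularFunctionFieldBar N`

`modularFunctionFieldBar N` (the field of the frozen statement S24) is, by definition,
`laurentBaseChange Qbar (modularFunctionFieldFull N)`.  We identify it with the prelude's
`modularFunctionFieldFullC Qbar N = Qbar(j(q^d) : d ∣ N)` and give the presentation of the
`Qbar`-subalgebra generated by the `j(q^d)` as the range of an `MvPolynomial.aeval`.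
-/

set_option autoImplicit false

noncomputable section

namespace Fermat.Agent.S24_helper62

open ModularCurve HahnSeries IntermediateField

/-- `coeffEmb` sends the rational `j`-series to the `j`-series over `L`. -/
theorem coeffEmb_jq (L : Type*) [Field L] [Algebra ℚ L] : coeffEmb L jq = jqModC L := by
  rw [← jqModC_rat, coeffEmb, coeffMap_jqModC]

/-- `coeffEmb` commutes with `q ↦ q^d`. -/
theorem coeffEmb_qExpand (L : Type*) [Field L] [Algebra ℚ L] (d : ℕ) [NeZero d]
    (x : LaurentSeries ℚ) : coeffEmb L (qExpand ℚ d x) = qExpand L d (coeffEmb L x) := by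
  rw [coeffEmb, coeffMap_qExpand]

theorem coeffEmb_image_divisorExpansions (L : Type*) [Field L] [Algebra ℚ L] (N : ℕ) :
    (⇑(coeffEmb L) '' divisorExpansions N) = divisorExpansionsC L N := by
  ext x
  constructor
  · rintro ⟨y, ⟨d, hne, hd, rfl⟩, rfl⟩
    have := hne
    exact ⟨d, hne, hd, by rw [coeffEmb_qExpand, coeffEmb_jq]⟩
  · rintro ⟨d, hne, hd, rfl⟩
    have := hne
    exact ⟨qExpand ℚ d jq, ⟨d, hne, hd, rfl⟩, by rw [coeffEmb_qExpand, coeffEmb_jq]⟩

theorem coeffEmb_mem_adjoin_image (L : Type*) [Field L] [Algebra ℚ L]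
    (S : Set (LaurentSeries ℚ)) {y : LaurentSeries ℚ} (hy : y ∈ IntermediateField.adjoin ℚ S) :
    coeffEmb L y ∈ IntermediateField.adjoin L (⇑(coeffEmb L) '' S) := by
  induction hy using IntermediateField.adjoin_induction with
  | mem z hz => exact IntermediateField.subset_adjoin L _ ⟨z, hz, rfl⟩
  | algebraMap c =>
      have h1 : coeffEmb L (algebraMap ℚ (LaurentSeries ℚ) c) =
          algebraMap L (LaurentSeries L) (algebraMap ℚ L c) := by
        rw [algebraMap_apply_eq_single, coeffEmb, coeffMap_single,
          algebraMap_laurentSeries_eq_single]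
      rw [h1]
      exact (IntermediateField.adjoin L _).algebraMap_mem _
  | add a b _ _ ha hb =>
      rw [map_add]
      exact add_mem ha hb
  | inv a _ ha =>
      rw [map_inv₀]
      exact inv_mem ha
  | mul a b _ _ ha hb =>
      rw [map_mul]
      exact mul_mem ha hb

/-- base change of an adjoined field is the field adjoined by the images of the generators -/
theorem laurentBaseChange_adjoin (L : Type*) [Field L] [Algebra ℚ L]
    (S : Set (LaurentSeries ℚ)) :
    laurentBaseChange L (IntermediateField.adjoin ℚ S) =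
      IntermediateField.adjoin L (⇑(coeffEmb L) '' S) := by
  apply le_antisymm
  · rw [laurentBaseChange, IntermediateField.adjoin_le_iff]
    rintro x ⟨y, hy, rfl⟩
    exact coeffEmb_mem_adjoin_image L S hy
  · rw [IntermediateField.adjoin_le_iff]
    rintro x ⟨y, hy, rfl⟩
    exact coeffEmb_mem_laurentBaseChange L (IntermediateField.subset_adjoin ℚ S hy)

/-- the field of S24 is `Qbar(j(q^d) : d ∣ N)` -/
theorem laurentBaseChange_full (L : Type*) [Field L] [Algebra ℚ L] (N : ℕ) :
    laurentBaseChange L (modularFunctionFieldFull N) = modularFunctionFieldFullC L N := by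
  rw [modularFunctionFieldFull, laurentBaseChange_adjoin, coeffEmb_image_divisorExpansions,
    modularFunctionFieldFullC]

theorem modularFunctionFieldBar_eq (N : ℕ) :
    modularFunctionFieldBar N = modularFunctionFieldFullC (AlgebraicClosure ℚ) N :=
  laurentBaseChange_full _ N


/-! ### The generating family and the subalgebra it generates -/

section Family

variable (K : Type*) [Field K] (N : ℕ) [NeZero N]

/-- index type of the generators: the divisors of `N` -/
abbrev DivIdx : Type := {d : ℕ // d ∣ N}

instance instNeZeroDivIdx (d : DivIdx N) : NeZero d.1 :=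
  ⟨fun h => NeZero.ne N (Nat.eq_zero_of_zero_dvd (h ▸ d.2))⟩

instance instFiniteDivIdx : Finite (DivIdx N) :=
  Finite.of_injective (fun d : DivIdx N => (⟨d.1, Nat.lt_succ_of_le
    (Nat.le_of_dvd (Nat.pos_of_ne_zero (NeZero.ne N)) d.2)⟩ : Fin (N + 1)))
    (fun a b h => Subtype.ext (by simpa using congrArg Fin.val h))

/-- the family `d ↦ j(q^d)` over `K` -/
def jFam (d : DivIdx N) : LaurentSeries K := qExpand K d.1 (jqModC K)

theorem range_jFam : Set.range (jFam K N) = divisorExpansionsC K N := by
  ext y
  constructor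
  · rintro ⟨d, rfl⟩
    exact ⟨d.1, inferInstance, d.2, rfl⟩
  · rintro ⟨d, hne, hd, rfl⟩
    exact ⟨⟨d, hd⟩, rfl⟩

theorem modularFunctionFieldFullC_eq_adjoin_range :
    modularFunctionFieldFullC K N = IntermediateField.adjoin K (Set.range (jFam K N)) := by
  rw [modularFunctionFieldFullC, range_jFam]

/-- the `K`-subalgebra generated by the `j(q^d)` -/
def jAlg : Subalgebra K (LaurentSeries K) := Algebra.adjoin K (Set.range (jFam K N))

theorem jAlg_eq_range_aeval : jAlg K N = (MvPolynomial.aeval (jFam K N)).range := by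
  rw [jAlg, Algebra.adjoin_range_eq_range_aeval]

theorem mem_jAlg_iff {x : LaurentSeries K} :
    x ∈ jAlg K N ↔ ∃ P : MvPolynomial (DivIdx N) K, MvPolynomial.aeval (jFam K N) P = x := by
  rw [jAlg_eq_range_aeval]
  rfl

theorem aeval_jFam_mem_jAlg (P : MvPolynomial (DivIdx N) K) :
    MvPolynomial.aeval (jFam K N) P ∈ jAlg K N :=
  (mem_jAlg_iff K N).mpr ⟨P, rfl⟩

theorem jAlg_le_full : (jAlg K N : Set (LaurentSeries K)) ⊆ modularFunctionFieldFullC K N := by
  rw [modularFunctionFieldFullC_eq_adjoin_range]
  exact IntermediateField.algebra_adjoin_le_adjoin K _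

theorem aeval_jFam_mem_full (P : MvPolynomial (DivIdx N) K) :
    MvPolynomial.aeval (jFam K N) P ∈ modularFunctionFieldFullC K N :=
  jAlg_le_full K N (aeval_jFam_mem_jAlg K N P)

theorem jFam_mem_full (d : DivIdx N) : jFam K N d ∈ modularFunctionFieldFullC K N :=
  jqModCd_mem_full K N d.2

/-- every element of the function field is a quotient of two polynomial expressions in the
`j(q^d)` -/
theorem exists_div_of_mem_full {x : LaurentSeries K} (hx : x ∈ modularFunctionFieldFullC K N) :
    ∃ P Q : MvPolynomial (DivIdx N) K,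
      x = MvPolynomial.aeval (jFam K N) P / MvPolynomial.aeval (jFam K N) Q := by
  rw [modularFunctionFieldFullC_eq_adjoin_range, IntermediateField.mem_adjoin_iff_div] at hx
  obtain ⟨a, ha, b, hb, rfl⟩ := hx
  obtain ⟨P, rfl⟩ := (mem_jAlg_iff K N).mp ha
  obtain ⟨Q, rfl⟩ := (mem_jAlg_iff K N).mp hb
  exact ⟨P, Q, rfl⟩

end Family

/-! ### The chosen embedding of `Qbar` into `ℂ` -/

/-- the fixed embedding `Qbar → ℂ` used by the whole analytic bridge of T24 -/
def iotaC : AlgebraicClosure ℚ →+* ℂ :=
  haveI : Algebra.IsAlgebraic ℚ (AlgebraicClosure ℚ) := AlgebraicClosure.isAlgebraic ℚ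
  ((IsAlgClosed.lift : AlgebraicClosure ℚ →ₐ[ℚ] ℂ) : AlgebraicClosure ℚ →+* ℂ)

theorem iotaC_injective : Function.Injective iotaC := iotaC.injective

end Fermat.Agent.S24_helper62
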