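import Fermat.Agent.S28.CuspExpansion
import Fermat.Agent.S24_helper62.FieldGen

/-!
# T24 / AN1-CUSP(Qbar), file (1): the formal cusp expansions of `j(d · g z)`

For a field `K` with a primitive `N`-th root of unity `ζ`, `g ∈ SL(2,ℤ)`, `d ∣ N` and Hermite
data `H : HermiteData d g` (`diag(d,1) g = g'' [[A,B],[0,D]]`) the expansion of
`z ↦ j(d · g z) = j((A z + B)/D)` in `t = q^{1/N}` is the formal series

  `H.ser ζ N = jCusp (ζ_D^B) m`,  `m = N A / D`,  `jCusp ξ m := (jq)(ξ t^m)`.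

This file is purely formal: order and leading coefficient of `jCusp`, its behaviour under
`t ↦ c t`, uniqueness of the Hermite parameters, invariance under `Γ₀(N)` on the left,
the `T`-shift, and the separation of cosets by the expansions for `d = N`.
-/

set_option autoImplicit false

noncomputable section

namespace Fermat.Agent.S24_helper62

open ModularCurve HahnSeries Fermat.Agent.S28 Fermat.Agent.S28.CuspExp

/-! ### The series `j(ξ t^m)` -/

section JCusp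

variable {K : Type*} [Field K]

/-- the formal series `j(ξ t^m)` -/
def jCusp (ξ : Kˣ) (m : ℕ) : LaurentSeries K :=
  if h : m = 0 then 0 else
    haveI : NeZero m := ⟨h⟩
    cuspS K ξ m (jqModC K)

theorem jCusp_eq (ξ : Kˣ) (m : ℕ) [NeZero m] : jCusp ξ m = cuspS K ξ m (jqModC K) := by
  rw [jCusp, dif_neg (NeZero.ne m)]

theorem jCusp_coeff_mul (ξ : Kˣ) (m : ℕ) [NeZero m] (n : ℤ) :
    (jCusp ξ m).coeff ((m : ℤ) * n) = ((ξ ^ n : Kˣ) : K) * (jqModC K).coeff n := by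
  rw [jCusp_eq, cuspS_coeff_mul]

theorem jCusp_coeff_of_not_dvd (ξ : Kˣ) (m : ℕ) [NeZero m] {k : ℤ} (hk : ¬ (m : ℤ) ∣ k) :
    (jCusp ξ m).coeff k = 0 := by
  rw [jCusp_eq]
  exact cuspS_coeff_of_not_dvd ξ m _ hk

/-- the leading coefficient -/
theorem jCusp_coeff_neg (ξ : Kˣ) (m : ℕ) [NeZero m] :
    (jCusp ξ m).coeff (-(m : ℤ)) = ((ξ⁻¹ : Kˣ) : K) := by
  have h := jCusp_coeff_mul ξ m (-1)
  rw [mul_neg_one, coeff_jqModC_neg_one, mul_one, zpow_neg_one] at h
  exact h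

theorem jCusp_coeff_of_lt (ξ : Kˣ) (m : ℕ) [NeZero m] {k : ℤ} (hk : k < -(m : ℤ)) :
    (jCusp ξ m).coeff k = 0 := by
  by_cases hdvd : (m : ℤ) ∣ k
  · obtain ⟨n, rfl⟩ := hdvd
    rw [jCusp_coeff_mul]
    have hm : (0 : ℤ) < m := by exact_mod_cast Nat.pos_of_ne_zero (NeZero.ne m)
    have hn : n < -1 := by
      by_contra hcon
      have hcon' : -1 ≤ n := not_lt.mp hcon
      nlinarith
    rw [coeff_jqModC_of_lt K hn, mul_zero]
  · exact jCusp_coeff_of_not_dvd ξ m hdvd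

theorem jCusp_ne_zero (ξ : Kˣ) (m : ℕ) [NeZero m] : jCusp ξ m ≠ 0 := by
  intro h
  have h1 := jCusp_coeff_neg ξ m
  rw [h, HahnSeries.coeff_zero] at h1
  exact (Units.ne_zero _) h1.symm

theorem jCusp_order (ξ : Kˣ) (m : ℕ) [NeZero m] : (jCusp ξ m).order = -(m : ℤ) := by
  apply le_antisymm
  · apply HahnSeries.order_le_of_coeff_ne_zero
    rw [jCusp_coeff_neg]
    exact Units.ne_zero _
  · by_contra hcon
    have hcon' : (jCusp ξ m).order < -(m : ℤ) := not_le.mp hcon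
    exact jCusp_ne_zero ξ m (HahnSeries.coeff_order_eq_zero.mp (jCusp_coeff_of_lt ξ m hcon'))

/-- the pair `(m, ξ)` is determined by the series -/
theorem jCusp_injective {ξ ξ' : Kˣ} {m m' : ℕ} [NeZero m] [NeZero m']
    (h : jCusp ξ m = jCusp ξ' m') : m = m' ∧ ξ = ξ' := by
  have hm : m = m' := by
    have h1 := jCusp_order ξ m
    rw [h, jCusp_order] at h1
    exact_mod_cast neg_injective h1.symm
  subst hm
  refine ⟨rfl, ?_⟩
  have h2 := jCusp_coeff_neg ξ m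
  rw [h, jCusp_coeff_neg] at h2
  exact inv_injective (Units.ext h2.symm)

/-- the substitution `t ↦ c t` -/
theorem scaleHom_jCusp (c ξ : Kˣ) (m : ℕ) [NeZero m] :
    scaleHom K c (jCusp ξ m) = jCusp (ξ * c ^ m) m := by
  ext k
  rw [scaleHom_coeff]
  by_cases hdvd : (m : ℤ) ∣ k
  · obtain ⟨n, rfl⟩ := hdvd
    rw [jCusp_coeff_mul, jCusp_coeff_mul, ← mul_assoc, ← Units.val_mul]
    congr 2
    rw [mul_zpow, ← zpow_natCast, ← zpow_mul, mul_comm (c ^ ((m : ℤ) * n))]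
  · rw [jCusp_coeff_of_not_dvd ξ m hdvd, jCusp_coeff_of_not_dvd _ m hdvd, mul_zero]

theorem jCusp_one (m : ℕ) [NeZero m] : jCusp (1 : Kˣ) m = qExpand K m (jqModC K) := by
  rw [jCusp_eq, cuspS_one_eq_qExpand]

end JCusp


/-! ### Roots of unity `ζ_D^B` -/

section Xi

variable {K : Type*} [Field K] (ζ : Kˣ) (N : ℕ)

/-- `ζ_D^B := ζ^((N/D) B)`, for `D ∣ N` -/
def xi (D : ℕ) (B : ℤ) : Kˣ := ζ ^ (((N / D : ℕ) : ℤ) * B)

theorem xi_add (D : ℕ) (B B' : ℤ) : xi ζ N D (B + B') = xi ζ N D B * xi ζ N D B' := by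
  rw [xi, xi, xi, mul_add, zpow_add]

theorem xi_zero (D : ℕ) : xi ζ N D 0 = 1 := by
  rw [xi, mul_zero, zpow_zero]

theorem xi_neg (D : ℕ) (B : ℤ) : xi ζ N D (-B) = (xi ζ N D B)⁻¹ := by
  rw [xi, xi, mul_neg, zpow_neg]

variable {ζ N}

theorem xi_mul_self (hζ : ζ ^ N = 1) {D : ℕ} (hD : D ∣ N) (k : ℤ) :
    xi ζ N D (k * D) = 1 := by
  rw [xi]
  have h : ((N / D : ℕ) : ℤ) * (k * D) = (N : ℤ) * k := by
    obtain ⟨e, rfl⟩ := hD
    rcases Nat.eq_zero_or_pos D with h0 | hpos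
    · subst h0; simp
    · rw [Nat.mul_div_cancel_left _ hpos]
      push_cast
      ring
  rw [h, zpow_mul, zpow_natCast, hζ, one_zpow]

theorem xi_emod (hζ : ζ ^ N = 1) {D : ℕ} (hD : D ∣ N) (B : ℤ) :
    xi ζ N D (B % D) = xi ζ N D B := by
  have h : B = B % D + (B / D) * D := by
    have := Int.emod_add_mul_ediv B D
    linarith
  conv_rhs => rw [h, xi_add, xi_mul_self hζ hD, mul_one]

theorem xi_eq_of_dvd_sub (hζ : ζ ^ N = 1) {D : ℕ} (hD : D ∣ N) {B B' : ℤ}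
    (h : (D : ℤ) ∣ B - B') : xi ζ N D B = xi ζ N D B' := by
  obtain ⟨k, hk⟩ := h
  have : B = B' + k * D := by linarith
  rw [this, xi_add, xi_mul_self hζ hD, mul_one]

theorem dvd_sub_of_xi_eq (hζ : IsPrimitiveRoot ζ N) {D : ℕ} (hD : D ∣ N) (hN : 0 < N)
    {B B' : ℤ} (h : xi ζ N D B = xi ζ N D B') : (D : ℤ) ∣ B - B' := by
  have h1 : xi ζ N D (B - B') = 1 := by
    rw [sub_eq_add_neg, xi_add, xi_neg, h, mul_inv_cancel]
  rw [xi, hζ.zpow_eq_one_iff_dvd] at h1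
  obtain ⟨e, rfl⟩ := hD
  have hD0 : 0 < D := Nat.pos_of_mul_pos_right hN
  rw [Nat.mul_div_cancel_left _ hD0] at h1
  push_cast at h1
  have hD0' : (D : ℤ) ≠ 0 := by exact_mod_cast hD0.ne'
  have he0 : (e : ℤ) ≠ 0 := by
    have : 0 < e := Nat.pos_of_mul_pos_left hN
    exact_mod_cast this.ne'
  rw [mul_comm (D : ℤ) (e : ℤ)] at h1
  exact (mul_dvd_mul_iff_left he0).mp h1

end Xi


/-! ### Uniqueness of the Hermite parameters -/

section Hermite

open Matrix MatrixGroups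

theorem det_entries (g : SL(2, ℤ)) : g 0 0 * g 1 1 - g 0 1 * g 1 0 = 1 := by
  have := g.det_coe
  rw [Matrix.det_fin_two] at this
  exact this

theorem isCoprime_col (g : SL(2, ℤ)) : IsCoprime (g 0 0) (g 1 0) :=
  ⟨g 1 1, -g 0 1, by linarith [det_entries g]⟩

theorem isCoprime_row (g : SL(2, ℤ)) : IsCoprime (g 1 0) (g 1 1) :=
  ⟨-g 0 1, g 0 0, by linarith [det_entries g]⟩

variable {d : ℕ} {g : SL(2, ℤ)}

/-- **Uniqueness of Hermite parameters**, in a flexible form: any factorisation of the first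
column and the last row of `diag(d,1) g` through an upper triangular matrix `[[A,B₀],[0,D]]`
with `A > 0`, `A D = d` (and `B₀` arbitrary) computes the parameters. -/
theorem hermite_eq_of_factor (hd : 0 < d) (H : HermiteData d g) (a c e A B₀ D : ℤ)
    (hac : IsCoprime a c) (hA : 0 < A) (hAD : A * D = d)
    (h00 : a * A = d * g 0 0) (h10 : c * A = g 1 0) (h11 : c * B₀ + e * D = g 1 1) :
    H.A = A ∧ H.D = D ∧ H.B = B₀ % D := by
  have hAeq : H.A = A := by
    rw [H.A_eq]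
    apply Int.dvd_antisymm (Int.natCast_nonneg _) hA.le
    · -- gcd ∣ A
      obtain ⟨u, v, huv⟩ := hac
      have h1 : ((Int.gcd (g 1 0) d : ℕ) : ℤ) ∣ g 1 0 := Int.gcd_dvd_left _ _
      have h2 : ((Int.gcd (g 1 0) d : ℕ) : ℤ) ∣ (d : ℤ) := Int.gcd_dvd_right _ _
      have h3 : A = u * (d * g 0 0) + v * g 1 0 := by
        rw [← h00, ← h10]
        have : A = (u * a + v * c) * A := by rw [huv, one_mul]
        linarith
      rw [h3]
      exact dvd_add (Dvd.dvd.mul_left (Dvd.dvd.mul_right h2 _) _) (Dvd.dvd.mul_left h1 _)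
    · -- A ∣ gcd
      apply Int.dvd_coe_gcd
      · exact ⟨c, by rw [← h10]; ring⟩
      · exact ⟨D, hAD.symm⟩
  have hDeq : H.D = D := by
    have h1 := H.A_mul_D
    rw [hAeq, ← hAD] at h1
    exact mul_left_cancel₀ hA.ne' h1
  refine ⟨hAeq, hDeq, ?_⟩
  have hDpos : 0 < D := by
    have := H.D_pos hd
    rwa [hDeq] at this
  have hc : H.g'' 1 0 = c := by
    have h1 := H.h10
    rw [hAeq, ← h10] at h1
    exact mul_right_cancel₀ hA.ne' h1
  have hcD : IsCoprime c D := by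
    have h1 := isCoprime_row g
    rw [← h10, ← h11] at h1
    have h2 : IsCoprime c (c * B₀ + e * D) := h1.of_mul_left_left
    have h3 : IsCoprime c (e * D) := by
      have := h2.neg_right.add_mul_left_right B₀
      -- c, -(c B₀ + e D) + c * B₀ = - e D
      have h4 : -(c * B₀ + e * D) + c * B₀ = -(e * D) := by ring
      rw [h4] at this
      simpa using this.neg_right
    exact h3.of_mul_right_right
  have hdvd : D ∣ H.B - B₀ := by
    have h1 := H.h11
    rw [hc, hDeq, ← h11] at h1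
    have h2 : c * (H.B - B₀) = (e - H.g'' 1 1) * D := by linarith
    have h3 : D ∣ c * (H.B - B₀) := ⟨e - H.g'' 1 1, by rw [h2]; ring⟩
    exact hcD.symm.dvd_of_dvd_mul_left h3
  have h5 : H.B % D = B₀ % D := by
    have h6 : B₀ ≡ H.B [ZMOD D] := Int.modEq_iff_dvd.mpr hdvd
    exact h6.symm
  rw [← h5, Int.emod_eq_of_lt H.B_nonneg (by rw [← hDeq]; exact H.B_lt)]

end Hermite


section HermiteParams

open Matrix MatrixGroups

variable {d : ℕ} {g : SL(2, ℤ)}

theorem mul_apply_entries (γ g : SL(2, ℤ)) (i j : Fin 2) :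
    (γ * g) i j = γ i 0 * g 0 j + γ i 1 * g 1 j := by
  rw [Matrix.SpecialLinearGroup.coe_mul, Matrix.mul_apply, Fin.sum_univ_two]

theorem hermite_params_unique (hd : 0 < d) (H H' : HermiteData d g) :
    H'.A = H.A ∧ H'.D = H.D ∧ H'.B = H.B := by
  have h := hermite_eq_of_factor hd H' (H.g'' 0 0) (H.g'' 1 0) (H.g'' 1 1) H.A H.B H.D
    (isCoprime_col H.g'') H.A_pos H.A_mul_D H.h00 H.h10 H.h11
  refine ⟨h.1, h.2.1, ?_⟩
  rw [h.2.2, Int.emod_eq_of_lt H.B_nonneg H.B_lt]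

/-- left multiplication by an element of `Γ₀(d)` does not change the Hermite parameters -/
theorem hermite_params_mul_left (hd : 0 < d) {γ : SL(2, ℤ)} (hγ : (d : ℤ) ∣ γ 1 0)
    (H : HermiteData d g) (H' : HermiteData d (γ * g)) :
    H'.A = H.A ∧ H'.D = H.D ∧ H'.B = H.B := by
  obtain ⟨γ', hγ'⟩ := hγ
  have hdet := det_entries γ
  have h := hermite_eq_of_factor hd H'
    (γ 0 0 * H.g'' 0 0 + d * γ 0 1 * H.g'' 1 0)
    (γ' * H.g'' 0 0 + γ 1 1 * H.g'' 1 0)
    (γ' * H.g'' 0 1 + γ 1 1 * H.g'' 1 1) H.A H.B H.D ?_ H.A_pos H.A_mul_D ?_ ?_ ?_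
  · refine ⟨h.1, h.2.1, ?_⟩
    rw [h.2.2, Int.emod_eq_of_lt H.B_nonneg H.B_lt]
  · obtain ⟨u, v, huv⟩ := isCoprime_col H.g''
    refine ⟨u * γ 1 1 - v * γ', -u * d * γ 0 1 + v * γ 0 0, ?_⟩
    rw [hγ'] at hdet
    linear_combination (u * H.g'' 0 0 + v * H.g'' 1 0) * hdet + huv
  · rw [mul_apply_entries]
    linear_combination γ 0 0 * H.h00 + (d : ℤ) * γ 0 1 * H.h10
  · rw [mul_apply_entries, hγ']
    linear_combination γ' * H.h00 + γ 1 1 * H.h10
  · rw [mul_apply_entries, hγ']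
    linear_combination γ' * H.h01 + γ 1 1 * H.h11

theorem mul_T_inv_entries (g : SL(2, ℤ)) :
    (g * ModularGroup.T⁻¹) 0 0 = g 0 0 ∧ (g * ModularGroup.T⁻¹) 1 0 = g 1 0 ∧
      (g * ModularGroup.T⁻¹) 1 1 = g 1 1 - g 1 0 := by
  have hT : ∀ i j, (ModularGroup.T⁻¹ : SL(2, ℤ)) i j = (!![1, -1; 0, 1] : Matrix _ _ ℤ) i j := by
    intro i j
    rw [← ModularGroup.coe_T_inv]
  refine ⟨?_, ?_, ?_⟩
  · rw [mul_apply_entries, hT, hT]; simp
  · rw [mul_apply_entries, hT, hT]; simp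
  · rw [mul_apply_entries, hT, hT]; simp; ring

theorem mul_T_entries (g : SL(2, ℤ)) :
    (g * ModularGroup.T) 0 0 = g 0 0 ∧ (g * ModularGroup.T) 1 0 = g 1 0 ∧
      (g * ModularGroup.T) 1 1 = g 1 1 + g 1 0 := by
  have hT : ∀ i j, (ModularGroup.T : SL(2, ℤ)) i j = (!![1, 1; 0, 1] : Matrix _ _ ℤ) i j := by
    intro i j
    rw [← ModularGroup.coe_T]
  refine ⟨?_, ?_, ?_⟩
  · rw [mul_apply_entries, hT, hT]; simp
  · rw [mul_apply_entries, hT, hT]; simp
  · rw [mul_apply_entries, hT, hT]; simp; ring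

/-- right multiplication by `T⁻¹` shifts `B` by `-A` -/
theorem hermite_params_mul_T_inv (hd : 0 < d) (H : HermiteData d g)
    (H' : HermiteData d (g * ModularGroup.T⁻¹)) :
    H'.A = H.A ∧ H'.D = H.D ∧ H'.B = (H.B - H.A) % H.D := by
  obtain ⟨e00, e10, e11⟩ := mul_T_inv_entries g
  refine hermite_eq_of_factor hd H' (H.g'' 0 0) (H.g'' 1 0) (H.g'' 1 1) H.A (H.B - H.A) H.D
    (isCoprime_col H.g'') H.A_pos H.A_mul_D ?_ ?_ ?_
  · rw [e00]; exact H.h00
  · rw [e10]; exact H.h10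
  · rw [e11]
    linear_combination H.h11 - H.h10

/-- right multiplication by `T` shifts `B` by `A` -/
theorem hermite_params_mul_T (hd : 0 < d) (H : HermiteData d g)
    (H' : HermiteData d (g * ModularGroup.T)) :
    H'.A = H.A ∧ H'.D = H.D ∧ H'.B = (H.B + H.A) % H.D := by
  obtain ⟨e00, e10, e11⟩ := mul_T_entries g
  refine hermite_eq_of_factor hd H' (H.g'' 0 0) (H.g'' 1 0) (H.g'' 1 1) H.A (H.B + H.A) H.D
    (isCoprime_col H.g'') H.A_pos H.A_mul_D ?_ ?_ ?_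
  · rw [e00]; exact H.h00
  · rw [e10]; exact H.h10
  · rw [e11]
    linear_combination H.h11 + H.h10

/-- the parameters for `g = 1` -/
theorem hermite_params_one (hd : 0 < d) (H : HermiteData d (1 : SL(2, ℤ))) :
    H.A = d ∧ H.D = 1 ∧ H.B = 0 := by
  have h := hermite_eq_of_factor hd H 1 0 1 d 0 1 isCoprime_one_left (by exact_mod_cast hd) (mul_one _)
    (by simp) (by simp) (by simp)
  simpa using h

/-- the parameters for `d = 1` -/
theorem hermite_params_d_one (H : HermiteData 1 g) : H.A = 1 ∧ H.D = 1 ∧ H.B = 0 := by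
  have h := hermite_eq_of_factor one_pos H (g 0 0) (g 1 0) (g 1 1) 1 0 1 (isCoprime_col g) one_pos
    (by simp) (by simp) (by simp) (by simp)
  simpa using h

/-- **Separation of cosets**: if `diag(N,1) g` and `diag(N,1) g'` have the same Hermite
parameters then `g' g⁻¹ ∈ Γ₀(N)`. -/
theorem hermite_lower_left_dvd {g' : SL(2, ℤ)} (H : HermiteData d g) (H' : HermiteData d g')
    (hA : H'.A = H.A) (hD : H'.D = H.D) (hB : H'.B = H.B) :
    (d : ℤ) ∣ g' 1 0 * g 1 1 - g' 1 1 * g 1 0 := by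
  refine ⟨H'.g'' 1 0 * H.g'' 1 1 - H'.g'' 1 1 * H.g'' 1 0, ?_⟩
  rw [← H.h10, ← H.h11, ← H'.h10, ← H'.h11, hA, hD, hB, ← H.A_mul_D]
  ring

theorem mul_inv_lower_left (g g' : SL(2, ℤ)) :
    (g' * g⁻¹) 1 0 = g' 1 0 * g 1 1 - g' 1 1 * g 1 0 := by
  rw [mul_apply_entries, Matrix.SpecialLinearGroup.coe_inv, Matrix.adjugate_fin_two]
  simp
  ring

end HermiteParams


/-! ### The formal expansion attached to Hermite data -/

section Ser

open Matrix MatrixGroups

variable {K : Type*} [Field K] (ζ : Kˣ) (N : ℕ) {d : ℕ} {g g' : SL(2, ℤ)}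

/-- the formal expansion of `z ↦ j(d · g z)` in `t = q^{1/N}` -/
def hermiteSer (H : HermiteData d g) : LaurentSeries K :=
  jCusp (xi ζ N H.Dn H.B) (H.expo N)

theorem neZero_expo (hN : 0 < N) (hdN : d ∣ N) (H : HermiteData d g) : NeZero (H.expo N) :=
  ⟨(H.expo_pos N hN hdN).ne'⟩

theorem hermiteSer_order (hN : 0 < N) (hdN : d ∣ N) (H : HermiteData d g) :
    (hermiteSer ζ N H : LaurentSeries K).order = -(H.expo N : ℤ) := by
  have := neZero_expo N hN hdN H
  exact jCusp_order _ _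

theorem hermiteSer_ne_zero (hN : 0 < N) (hdN : d ∣ N) (H : HermiteData d g) :
    (hermiteSer ζ N H : LaurentSeries K) ≠ 0 := by
  have := neZero_expo N hN hdN H
  exact jCusp_ne_zero _ _

variable {ζ N}

theorem Dn_dvd_N (hN : 0 < N) (hdN : d ∣ N) (H : HermiteData d g) : H.Dn ∣ N :=
  (H.Dn_dvd (Nat.pos_of_dvd_of_pos hdN hN)).trans hdN

theorem An_eq_of_A_eq (H : HermiteData d g) (H' : HermiteData d g') (hA : H'.A = H.A) :
    H'.An = H.An := by
  have : (H'.An : ℤ) = H.An := by rw [H'.coe_An, H.coe_An, hA]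
  exact_mod_cast this

theorem Dn_eq_of_D_eq (hd : 0 < d) (H : HermiteData d g) (H' : HermiteData d g')
    (hD : H'.D = H.D) : H'.Dn = H.Dn := by
  have : (H'.Dn : ℤ) = H.Dn := by rw [H'.coe_Dn hd, H.coe_Dn hd, hD]
  exact_mod_cast this

/-- the expansion only depends on `A`, `D` and `B mod D` -/
theorem hermiteSer_congr (hζ : ζ ^ N = 1) (hN : 0 < N) (hdN : d ∣ N) (H : HermiteData d g)
    (H' : HermiteData d g') (hA : H'.A = H.A) (hD : H'.D = H.D) (hB : H.D ∣ H'.B - H.B) :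
    (hermiteSer ζ N H' : LaurentSeries K) = hermiteSer ζ N H := by
  have hd : 0 < d := Nat.pos_of_dvd_of_pos hdN hN
  have hAn := An_eq_of_A_eq H H' hA
  have hDn := Dn_eq_of_D_eq hd H H' hD
  rw [hermiteSer, hermiteSer, HermiteData.expo, HermiteData.expo, hAn, hDn]
  congr 1
  apply xi_eq_of_dvd_sub hζ (Dn_dvd_N hN hdN H)
  rw [H.coe_Dn hd]
  exact hB

theorem hermiteSer_unique (hζ : ζ ^ N = 1) (hN : 0 < N) (hdN : d ∣ N) (H H' : HermiteData d g) :
    (hermiteSer ζ N H' : LaurentSeries K) = hermiteSer ζ N H := by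
  have hd : 0 < d := Nat.pos_of_dvd_of_pos hdN hN
  obtain ⟨hA, hD, hB⟩ := hermite_params_unique hd H H'
  exact hermiteSer_congr hζ hN hdN H H' hA hD (by rw [hB, sub_self]; exact dvd_zero _)

/-- invariance under left multiplication by `Γ₀(d)` -/
theorem hermiteSer_mul_left (hζ : ζ ^ N = 1) (hN : 0 < N) (hdN : d ∣ N) {γ : SL(2, ℤ)}
    (hγ : (d : ℤ) ∣ γ 1 0) (H : HermiteData d g) (H' : HermiteData d (γ * g)) :
    (hermiteSer ζ N H' : LaurentSeries K) = hermiteSer ζ N H := by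
  have hd : 0 < d := Nat.pos_of_dvd_of_pos hdN hN
  obtain ⟨hA, hD, hB⟩ := hermite_params_mul_left hd hγ H H'
  exact hermiteSer_congr hζ hN hdN H H' hA hD (by rw [hB, sub_self]; exact dvd_zero _)

theorem natDiv_mul_A (hN : 0 < N) (hdN : d ∣ N) (H : HermiteData d g) :
    ((N / H.Dn : ℕ) : ℤ) * H.A = (H.expo N : ℤ) := by
  have hd : 0 < d := Nat.pos_of_dvd_of_pos hdN hN
  have h1 := H.expo_mul_D N hdN
  have hDn := Dn_dvd_N hN hdN H
  have h2 : ((N / H.Dn : ℕ) : ℤ) * H.D = N := by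
    rw [← H.coe_Dn hd]
    exact_mod_cast Nat.div_mul_cancel hDn
  have hD0 : H.D ≠ 0 := (H.D_pos hd).ne'
  apply mul_right_cancel₀ hD0
  rw [h1, mul_assoc, mul_comm H.A H.D, ← mul_assoc, h2]

/-- right multiplication by `T⁻¹` is the substitution `t ↦ ζ⁻¹ t` -/
theorem hermiteSer_mul_T_inv (hζ : ζ ^ N = 1) (hN : 0 < N) (hdN : d ∣ N) (H : HermiteData d g)
    (H' : HermiteData d (g * ModularGroup.T⁻¹)) :
    (hermiteSer ζ N H' : LaurentSeries K) = scaleHom K ζ⁻¹ (hermiteSer ζ N H) := by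
  have hd : 0 < d := Nat.pos_of_dvd_of_pos hdN hN
  have := neZero_expo N hN hdN H
  obtain ⟨hA, hD, hB⟩ := hermite_params_mul_T_inv hd H H'
  have hAn := An_eq_of_A_eq H H' hA
  have hDn := Dn_eq_of_D_eq hd H H' hD
  have hexpo : H'.expo N = H.expo N := by rw [HermiteData.expo, HermiteData.expo, hAn]
  rw [hermiteSer, hermiteSer, scaleHom_jCusp, hexpo, hDn, hB]
  congr 1
  have h1 : xi ζ N H.Dn ((H.B - H.A) % H.D) = xi ζ N H.Dn (H.B - H.A) := by
    have := xi_emod hζ (Dn_dvd_N hN hdN H) (H.B - H.A)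
    rwa [H.coe_Dn hd] at this
  rw [h1, sub_eq_add_neg, xi_add, xi_neg]
  congr 1
  rw [xi, natDiv_mul_A hN hdN H, zpow_natCast, inv_pow]

/-- right multiplication by `T` is the substitution `t ↦ ζ t` -/
theorem hermiteSer_mul_T (hζ : ζ ^ N = 1) (hN : 0 < N) (hdN : d ∣ N) (H : HermiteData d g)
    (H' : HermiteData d (g * ModularGroup.T)) :
    (hermiteSer ζ N H' : LaurentSeries K) = scaleHom K ζ (hermiteSer ζ N H) := by
  have hd : 0 < d := Nat.pos_of_dvd_of_pos hdN hN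
  have := neZero_expo N hN hdN H
  obtain ⟨hA, hD, hB⟩ := hermite_params_mul_T hd H H'
  have hAn := An_eq_of_A_eq H H' hA
  have hDn := Dn_eq_of_D_eq hd H H' hD
  have hexpo : H'.expo N = H.expo N := by rw [HermiteData.expo, HermiteData.expo, hAn]
  rw [hermiteSer, hermiteSer, scaleHom_jCusp, hexpo, hDn, hB]
  congr 1
  have h1 : xi ζ N H.Dn ((H.B + H.A) % H.D) = xi ζ N H.Dn (H.B + H.A) := by
    have := xi_emod hζ (Dn_dvd_N hN hdN H) (H.B + H.A)
    rwa [H.coe_Dn hd] at this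
  rw [h1, xi_add]
  congr 1
  rw [xi, natDiv_mul_A hN hdN H, zpow_natCast]

/-- the expansion at the cusp `∞` (`g = 1`) is `j(q^d)` read in `t` -/
theorem hermiteSer_one (hN : 0 < N) (hdN : d ∣ N) (H : HermiteData d (1 : SL(2, ℤ)))
    [NeZero N] [NeZero d] :
    (hermiteSer ζ N H : LaurentSeries K) = qExpand K N (qExpand K d (jqModC K)) := by
  have hd : 0 < d := Nat.pos_of_dvd_of_pos hdN hN
  obtain ⟨hA, hD, hB⟩ := hermite_params_one hd H
  have hAn : H.An = d := by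
    have : (H.An : ℤ) = d := by rw [H.coe_An, hA]
    exact_mod_cast this
  have hexpo : H.expo N = N * d := by
    rw [HermiteData.expo, hAn]
    obtain ⟨e, rfl⟩ := hdN
    rw [Nat.mul_div_cancel_left _ hd]
    ring
  have : NeZero (N * d) := ⟨Nat.mul_ne_zero (NeZero.ne N) (NeZero.ne d)⟩
  rw [hermiteSer, hB, xi_zero, hexpo, jCusp_one, qExpand_qExpand]

/-- for `d = 1` every expansion is `j(t^N)` -/
theorem hermiteSer_d_one (H : HermiteData 1 g) [NeZero N] :
    (hermiteSer ζ N H : LaurentSeries K) = qExpand K N (jqModC K) := by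
  obtain ⟨hA, hD, hB⟩ := hermite_params_d_one H
  have hAn : H.An = 1 := by
    have : (H.An : ℤ) = 1 := by rw [H.coe_An, hA]
    exact_mod_cast this
  have hexpo : H.expo N = N := by
    rw [HermiteData.expo, hAn]
    simp
  rw [hermiteSer, hB, xi_zero, hexpo, jCusp_one]

/-- **Separation of cosets** by the expansions of `j(N z)` -/
theorem mem_Gamma0_of_hermiteSer_eq (hζ : IsPrimitiveRoot ζ N) (hN : 0 < N)
    (H : HermiteData N g) (H' : HermiteData N g')
    (h : (hermiteSer ζ N H' : LaurentSeries K) = hermiteSer ζ N H) :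
    g' * g⁻¹ ∈ CongruenceSubgroup.Gamma0 N := by
  have := neZero_expo N hN dvd_rfl H
  have := neZero_expo N hN dvd_rfl H'
  obtain ⟨hm, hξ⟩ := jCusp_injective h
  have hAn : H'.An = H.An := by
    rw [HermiteData.expo, HermiteData.expo, Nat.div_self hN, one_mul, one_mul] at hm
    exact Nat.pow_left_injective (by norm_num : (2:ℕ) ≠ 0) hm
  have hA : H'.A = H.A := by rw [← H'.coe_An, ← H.coe_An, hAn]
  have hD : H'.D = H.D := by
    have h1 := H'.A_mul_D
    rw [← H.A_mul_D, hA] at h1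
    exact mul_left_cancel₀ H.A_pos.ne' h1
  have hDn := Dn_eq_of_D_eq hN H H' hD
  rw [hDn] at hξ
  have hdvd := dvd_sub_of_xi_eq hζ (Dn_dvd_N hN dvd_rfl H) hN hξ
  rw [H.coe_Dn hN] at hdvd
  have hB : H'.B = H.B := by
    have h1 : H'.B % H.D = H.B % H.D := (Int.modEq_iff_dvd.mpr hdvd).symm
    rw [Int.emod_eq_of_lt H'.B_nonneg (by rw [← hD]; exact H'.B_lt),
      Int.emod_eq_of_lt H.B_nonneg H.B_lt] at h1
    exact h1
  rw [CongruenceSubgroup.Gamma0_mem, mul_inv_lower_left,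
    ZMod.intCast_zmod_eq_zero_iff_dvd]
  exact hermite_lower_left_dvd H H' hA hD hB

end Ser

end Fermat.Agent.S24_helper62
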