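/-
T24 / AN1-CUSP (helper62): the `ψ(N)` cusp embeddings of the function field `F_N` of `X₀(N)` over
`ℚ̄` into `ℚ̄((t))`, `t = q^{1/N}`, indexed by `SL₂(ℤ) ⧸ Γ₀(N)`.

Obtained by instantiating T28's `cuspInputOfAnalytic` (Assemble.lean) at `k = 𝒪 = ℚ̄`,
`φ = iotaC : ℚ̄ →+* ℂ`, restricting to `F_N ≤ bigField ℚ̄ N` and identifying the values on the
generators `j(q^d)` with the explicit series `hermiteSer` of `CuspSeries.lean`.

Main results:
* `cuspSigma N q : FN N →ₐ[Kbar] LaurentSeries Kbar`;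
* `cuspSigma_jdF`   : `σ_q (j(q^d)) = hermiteSer ζ N (herm N q d)`;
* `cuspSigma_jF`    : (C1) `σ_q (j) = j(t^N)`;
* `cuspSigma_injective` : (C2);
* `cuspSigma_sym`   : (C3) symmetric functions of the expansions are polynomials in `j`;
* `cuspSigma_T_smul` : (C4) `σ_{T q} = (t ↦ ζ⁻¹ t) ∘ σ_q`;
* `m9 : Iface.M9 N`.
-/
import Fermat.Agent.S28.Assemble
import Fermat.Agent.S28.AnalyticInst
import Fermat.Agent.S24_helper62.CuspSeries
import Fermat.Agent.S24.ModularDefs
import Fermat.Agent.S24.LOC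
import Fermat.Agent.S24.LaurentOrd
import Fermat.Agent.S24.Degree
import Fermat.Agent.S24.Comb

set_option autoImplicit false

noncomputable section

namespace Fermat.Agent.S24_helper62

open ModularCurve HahnSeries Fermat.Agent.S28 Fermat.Agent.S28.CuspExp Fermat.Agent.S24
open Fermat.Agent.S28.Assemble
open scoped MatrixGroups

section Roots

variable (N : ℕ) [NeZero N]

/-- there is a primitive `N`-th root of unity in `ℚ̄` which maps to `exp(2πi/N)` in `ℂ` -/
theorem exists_zetaBar : ∃ ζ : Kbarˣ, IsPrimitiveRoot ζ N ∧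
    iotaC (ζ : Kbar) = Complex.exp (2 * Real.pi * Complex.I / N) := by
  obtain ⟨ζ₀, hζ₀⟩ := HasEnoughRootsOfUnity.exists_primitiveRoot Kbar N
  have h1 : IsPrimitiveRoot (iotaC ζ₀) N := hζ₀.map_of_injective iotaC_injective
  have h2 := Complex.isPrimitiveRoot_exp N (NeZero.ne N)
  obtain ⟨i, -, hi⟩ := h1.eq_pow_of_pow_eq_one h2.pow_eq_one
  have h3 : IsPrimitiveRoot (ζ₀ ^ i) N := by
    apply IsPrimitiveRoot.of_map_of_injective (f := iotaC) _ iotaC_injective
    rw [map_pow, hi]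
    exact h2
  refine ⟨(h3.isUnit (NeZero.ne N)).unit, ?_, ?_⟩
  · rw [← IsPrimitiveRoot.coe_units_iff]
    exact h3
  · rw [IsUnit.unit_spec, map_pow, hi]

/-- the chosen root of unity -/
def zetaBar : Kbarˣ := (exists_zetaBar N).choose

theorem zetaBar_isPrimitiveRoot : IsPrimitiveRoot (zetaBar N) N := (exists_zetaBar N).choose_spec.1

theorem iotaC_zetaBar : iotaC (zetaBar N : Kbar) = Complex.exp (2 * Real.pi * Complex.I / N) :=
  (exists_zetaBar N).choose_spec.2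

theorem zetaBar_pow : zetaBar N ^ N = 1 := (zetaBar_isPrimitiveRoot N).pow_eq_one

theorem iotaC_xi {D : ℕ} (hD : D ∣ N) (B : ℤ) :
    iotaC ((xi (zetaBar N) N D B : Kbarˣ) : Kbar) = rootExp B D := by
  have hD0 : (D : ℂ) ≠ 0 := by
    have : D ≠ 0 := fun h => NeZero.ne N (Nat.eq_zero_of_zero_dvd (h ▸ hD))
    exact_mod_cast this
  have hN0 : (N : ℂ) ≠ 0 := by exact_mod_cast NeZero.ne N
  rw [xi, Units.val_zpow_eq_zpow_val, map_zpow₀, iotaC_zetaBar, ← Complex.exp_int_mul, rootExp]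
  congr 1
  obtain ⟨m, rfl⟩ := hD
  have hD' : 0 < D := Nat.pos_of_ne_zero (by rintro rfl; simp at hD0)
  rw [Nat.mul_div_cancel_left m hD']
  have hm0 : (m : ℂ) ≠ 0 := by
    rintro h
    apply hN0
    push_cast
    rw [h, mul_zero]
  push_cast
  field_simp

end Roots

section Input

variable (N : ℕ) [NeZero N]

theorem hzetaBar : ∀ D B : ℕ, D ∣ N → ∃ u : Kbarˣ,
    iotaC (algebraMap Kbar Kbar (u : Kbar)) = Complex.exp (2 * Real.pi * Complex.I * B / D) := by
  intro D B hD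
  refine ⟨xi (zetaBar N) N D B, ?_⟩
  rw [Algebra.algebraMap_self, RingHom.id_apply, iotaC_xi N hD, rootExp]
  push_cast
  rfl

theorem hDBar : ∀ D : ℕ, D ∣ N → IsUnit ((D : ℕ) : Kbar) := by
  intro D hD
  have : D ≠ 0 := fun h => NeZero.ne N (Nat.eq_zero_of_zero_dvd (h ▸ hD))
  exact isUnit_iff_ne_zero.mpr (by exact_mod_cast this)

/-- the cusp input of T28 over `k = 𝒪 = ℚ̄` -/
def cuspInp : CuspInput Kbar N Kbar :=
  cuspInputOfAnalytic N iotaC (hzetaBar N) (hDBar N) (analyticFacts N)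

/-- `F_N ≤ bigField` -/
theorem fullBar_le_bigField : modularFunctionFieldBar N ≤ bigField Kbar N := by
  rw [modularFunctionFieldBar_eq, modularFunctionFieldFullC_eq_adjoin_range, bigField]
  apply IntermediateField.adjoin.mono
  rintro _ ⟨d, rfl⟩
  exact ⟨d.1, inferInstance, d.2, Or.inl rfl⟩

/-- the cusp embeddings of `F_N` -/
def cuspSigma (q : I0 N) : FN N →ₐ[Kbar] LaurentSeries Kbar :=
  ((cuspInp N).σ q).comp (IntermediateField.inclusion (fullBar_le_bigField N))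

theorem jdSeries_eq_genFam {d : ℕ} [NeZero d] (hd : d ∣ N) :
    jdSeries d = genFam Kbar N (⟨d, hd⟩, 0) := by
  rw [jdSeries, coeffEmb_qExpand, coeffEmb_jq]
  rfl

theorem xiO_eq (q : I0 N) (d : {d : ℕ // d ∣ N}) :
    xiO N iotaC (hzetaBar N) q d = xi (zetaBar N) N (herm N q d).Dn (herm N q d).B := by
  apply Units.ext
  apply iotaC_injective
  have h := xiO_spec N iotaC (hzetaBar N) q d
  rw [Algebra.algebraMap_self, RingHom.id_apply] at h
  rw [h, iotaC_xi N (herm_Dn_dvd N q d), (herm N q d).coe_Dn (div_pos' N d)]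

/-- **the cusp embeddings on the generators** -/
theorem cuspSigma_jdF (q : I0 N) {d : ℕ} [NeZero d] (hd : d ∣ N) :
    cuspSigma N q (jdF N d hd) = hermiteSer (zetaBar N) N (herm N q ⟨d, hd⟩) := by
  have hmem : genFam Kbar N (⟨d, hd⟩, 0) ∈ bigField Kbar N := by
    rw [← jdSeries_eq_genFam N hd]
    exact fullBar_le_bigField N (jdSeries_mem N hd)
  have h1 : cuspSigma N q (jdF N d hd) =
      (cuspInp N).σ q ⟨genFam Kbar N (⟨d, hd⟩, 0), hmem⟩ := by
    rw [cuspSigma, AlgHom.comp_apply]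
    congr 1
    apply Subtype.ext
    exact jdSeries_eq_genFam N hd
  rw [h1, (cuspInp N).σ_gen q (⟨d, hd⟩, 0) hmem]
  show sK N iotaC (hzetaBar N) (hDBar N) q (⟨d, hd⟩, 0) = _
  rw [sK_eq]
  show cuspJ Kbar _ _ = _
  have : NeZero ((herm N q ⟨d, hd⟩).expo N) :=
    neZero_expo N (Nat.pos_of_ne_zero (NeZero.ne N)) hd _
  rw [hermiteSer, jCusp_eq, cuspJ, ← xiO_eq]
  congr 1

/-- (C1) all the cusp embeddings agree at `j`, with value `j(t^N)` -/
theorem cuspSigma_jF (q : I0 N) : cuspSigma N q (jF N) = qExpand Kbar N (jqModC Kbar) := by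
  rw [jF, cuspSigma_jdF, hermiteSer_d_one]

/-- (C2) the cusp embeddings are pairwise distinct -/
theorem cuspSigma_injective : Function.Injective (cuspSigma N) := by
  intro q q' h
  have h1 : cuspSigma N q' (jdF N N dvd_rfl) = cuspSigma N q (jdF N N dvd_rfl) := by rw [h]
  rw [cuspSigma_jdF, cuspSigma_jdF] at h1
  have h2 := mem_Gamma0_of_hermiteSer_eq (zetaBar_isPrimitiveRoot N)
    (Nat.pos_of_ne_zero (NeZero.ne N)) _ _ h1
  rw [rep, rep, inv_inv] at h2
  rw [← QuotientGroup.out_eq' q, ← QuotientGroup.out_eq' q', QuotientGroup.eq]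
  have h3 := inv_mem h2
  rwa [mul_inv_rev, inv_inv] at h3

end Input

section Equivariance

variable (N : ℕ) [NeZero N]

theorem scaleHom_C {K : Type*} [Field K] (c : Kˣ) (a : K) :
    scaleHom K c (HahnSeries.C a) = HahnSeries.C a := by
  ext m
  rw [scaleHom_coeff, HahnSeries.C_apply, HahnSeries.coeff_single]
  split_ifs with h
  · subst h; simp
  · simp

/-- the rotation `t ↦ c t` as a `ℚ̄`-algebra endomorphism of `ℚ̄((t))` -/
def scaleAlgHom (c : Kbarˣ) : LaurentSeries Kbar →ₐ[Kbar] LaurentSeries Kbar :=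
  { scaleHom Kbar c with
    commutes' := fun a => by
      show scaleHom Kbar c (algebraMap Kbar (LaurentSeries Kbar) a) = _
      rw [EvalBridge.algebraMap_laurent_eq_C, scaleHom_C] }

theorem scaleAlgHom_apply (c : Kbarˣ) (x : LaurentSeries Kbar) :
    scaleAlgHom c x = scaleHom Kbar c x := rfl

theorem hermiteSer_of_eq {K : Type*} [Field K] {ζ : Kˣ} {N d : ℕ} (hζ : ζ ^ N = 1) (hN : 0 < N)
    (hdN : d ∣ N) {g g₁ γ : SL(2, ℤ)} (hγ : (d : ℤ) ∣ γ 1 0)
    (hg₁ : g₁ = γ * (g * ModularGroup.T⁻¹)) (H : HermiteData d g) (H₁ : HermiteData d g₁) :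
    (hermiteSer ζ N H₁ : LaurentSeries K) = scaleHom K ζ⁻¹ (hermiteSer ζ N H) := by
  subst hg₁
  have hd : 0 < d := Nat.pos_of_ne_zero fun h => hN.ne' (Nat.eq_zero_of_zero_dvd (h ▸ hdN))
  obtain ⟨H'⟩ := nonempty_hermiteData d hd (g * ModularGroup.T⁻¹)
  rw [hermiteSer_mul_left hζ hN hdN hγ H' H₁, hermiteSer_mul_T_inv hζ hN hdN H H']

omit [NeZero N] in
theorem rep_T_smul (q : I0 N) : ∃ γ : SL(2, ℤ), (N : ℤ) ∣ γ 1 0 ∧
    rep N (ModularGroup.T • q) = γ * (rep N q * ModularGroup.T⁻¹) := by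
  have hq : ModularGroup.T • q =
      ((ModularGroup.T * Quotient.out q : SL(2, ℤ)) : SL(2, ℤ) ⧸ CongruenceSubgroup.Gamma0 N) := by
    conv_lhs => rw [← QuotientGroup.out_eq' q]
    rfl
  obtain ⟨h, hh⟩ := QuotientGroup.mk_out_eq_mul (CongruenceSubgroup.Gamma0 N)
    (ModularGroup.T * Quotient.out q)
  refine ⟨(h : SL(2, ℤ))⁻¹, ?_, ?_⟩
  · have := (inv_mem h.2 : (h : SL(2, ℤ))⁻¹ ∈ CongruenceSubgroup.Gamma0 N)
    rw [CongruenceSubgroup.Gamma0_mem, ZMod.intCast_zmod_eq_zero_iff_dvd] at this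
    exact this
  · rw [rep, rep, hq, hh]
    group

theorem fullBar_eq_adjoin :
    modularFunctionFieldBar N = IntermediateField.adjoin Kbar (Set.range (jFam Kbar N)) := by
  rw [modularFunctionFieldBar_eq, modularFunctionFieldFullC_eq_adjoin_range]

theorem jdSeries_eq_jFam (d : DivIdx N) : jdSeries d.1 = jFam Kbar N d := by
  rw [jdSeries, coeffEmb_qExpand, coeffEmb_jq, jFam]

/-- two `ℚ̄`-algebra maps out of `F_N` which agree on the `j(q^d)` are equal -/
theorem algHom_FN_ext {φ₁ φ₂ : FN N →ₐ[Kbar] LaurentSeries Kbar}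
    (h : ∀ (d : ℕ) [NeZero d] (hd : d ∣ N), φ₁ (jdF N d hd) = φ₂ (jdF N d hd)) : φ₁ = φ₂ := by
  apply IntermediateField.algHom_ext_of_eq_adjoin Kbar (fullBar_eq_adjoin N)
  rintro _ ⟨d, rfl⟩
  have := h d.1 d.2
  have e : jdF N d.1 d.2 = ⟨jFam Kbar N d, by
      rw [fullBar_eq_adjoin]; exact IntermediateField.subset_adjoin _ _ ⟨d, rfl⟩⟩ :=
    Subtype.ext (jdSeries_eq_jFam N d)
  rw [e] at this
  exact this

/-- (C4) compatibility of the cusp embeddings with `T`: `σ_{T q} = (t ↦ ζ⁻¹ t) ∘ σ_q` -/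
theorem cuspSigma_T_smul (q : I0 N) :
    cuspSigma N (ModularGroup.T • q) = (scaleAlgHom (zetaBar N)⁻¹).comp (cuspSigma N q) := by
  apply algHom_FN_ext
  intro d _ hd
  rw [AlgHom.comp_apply, scaleAlgHom_apply, cuspSigma_jdF, cuspSigma_jdF]
  obtain ⟨γ, hγ, hrep⟩ := rep_T_smul N q
  exact hermiteSer_of_eq (zetaBar_pow N) (Nat.pos_of_ne_zero (NeZero.ne N)) hd
    ((Int.natCast_dvd_natCast.mpr hd).trans hγ) hrep _ _

theorem cuspSigma_T_smul_apply (q : I0 N) (f : FN N) :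
    cuspSigma N (ModularGroup.T • q) f = scaleHom Kbar (zetaBar N)⁻¹ (cuspSigma N q f) := by
  rw [cuspSigma_T_smul]
  rfl

/-- (C4), existential form -/
theorem exists_zeta_cuspSigma_T_smul : ∃ ζ : Kbarˣ, IsPrimitiveRoot ζ N ∧
    ∀ (q : I0 N) (f : FN N),
      cuspSigma N (ModularGroup.T • q) f = scaleHom Kbar ζ (cuspSigma N q f) :=
  ⟨(zetaBar N)⁻¹, (zetaBar_isPrimitiveRoot N).inv, cuspSigma_T_smul_apply N⟩

end Equivariance

section Sym

variable (N : ℕ) [NeZero N]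

theorem coe_mem_bigAlg_of_mem_RN {a : FN N} (ha : a ∈ Degree.RN N) :
    (a : LaurentSeries Kbar) ∈ bigAlg Kbar N := by
  induction ha using Algebra.adjoin_induction with
  | mem x hx =>
    obtain ⟨d, hne, hd, rfl⟩ := hx
    apply Algebra.subset_adjoin
    refine ⟨d, hne, hd, Or.inl ?_⟩
    show jdSeries d = jS Kbar d
    rw [jdSeries, coeffEmb_qExpand, coeffEmb_jq, jS]
  | algebraMap c => exact Subalgebra.algebraMap_mem _ c
  | add x y _ _ hx hy => exact Subalgebra.add_mem _ hx hy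
  | mul x y _ _ hx hy => exact Subalgebra.mul_mem _ hx hy

/-- (C3) the elementary symmetric functions of the cusp expansions of an element of
`ℚ̄[j(q^d) : d ∣ N]` are polynomials in `j` -/
theorem cuspSigma_sym (a : FN N) (ha : a ∈ Degree.RN N) (m : ℕ) :
    (∏ q : I0 N, (Polynomial.X - Polynomial.C (cuspSigma N q a))).coeff m ∈
      qExpand Kbar N '' (Algebra.adjoin Kbar {jqModC Kbar} : Set (LaurentSeries Kbar)) := by
  have := (cuspInp N).toDatum.sym (IntermediateField.inclusion (fullBar_le_bigField N) a)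
    (coe_mem_bigAlg_of_mem_RN N ha) m
  exact this

/-- **M9**: `F_N / ℚ̄(j)` is finite of degree `ψ(N)` -/
theorem m9 : Iface.M9 N :=
  Degree.m9_of_cuspEmb (σ := cuspSigma N) (cuspSigma_jF N) (cuspSigma_injective N)
    (cuspSigma_sym N) (Comb.m11 N).1

end Sym
end Fermat.Agent.S24_helper62
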