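/-
T24 (helper62): the fibre input at `j = ∞` of the final assembly `FinalD.genus_eq_genusFormula`,
obtained by feeding the cusp embeddings `cuspSigma` (CuspEmb.lean) into helper76's `CuspOrbit`.
-/
import Fermat.Agent.S24_helper62.CuspEmb
import Fermat.Agent.S24_helper76.CuspOrbit
import Fermat.Agent.S24.FinalD

set_option autoImplicit false

noncomputable section

namespace Fermat.Agent.S24_helper62

open ModularCurve HahnSeries Fermat.Agent.S28 Fermat.Agent.S24 IntermediateField
open scoped MatrixGroups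

section

variable (N : ℕ) [NeZero N]

/-- `j` is a separating generator: transcendental with `F_N / ℚ̄(j)` finite -/
theorem isGen_jF : IsGen Kbar (jF N) := ⟨(m9 N).1, (m9 N).2.1⟩

theorem finrank_FN : Module.finrank Kbar⟮jF N⟯ (FN N) = dedekindPsi N := (m9 N).2.2

/-- **the fibre input at `j = ∞`** (local monodromy `T`) -/
theorem cuspFibreInput :
    FinalD.FibreInput Kbar⟮jF N⟯ (jF N)⁻¹ (I0 N) ModularGroup.T := by
  have : FiniteDimensional Kbar⟮jF N⟯ (FN N) := (m9 N).2.1
  have hζ : IsPrimitiveRoot (zetaBar N)⁻¹ N := (zetaBar_isPrimitiveRoot N).inv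
  exact ⟨⟨S24_helper76.CuspOrbit.cuspData (cuspSigma_jF N),
    S24_helper76.CuspOrbit.hnorm_cusp (cuspSigma_jF N) (cuspSigma_injective N) (cuspSigma_sym N),
    S24_helper76.CuspOrbit.hsymm_cusp (cuspSigma_jF N) ModularGroup.T (zetaBar N)⁻¹
      (cuspSigma_T_smul_apply N),
    S24_helper76.CuspOrbit.hg_cusp (cuspSigma_jF N) (cuspSigma_injective N) ModularGroup.T
      (zetaBar N)⁻¹ hζ (cuspSigma_T_smul_apply N),
    S24_helper76.CuspOrbit.hdiv_cusp (cuspSigma_jF N) ModularGroup.T (zetaBar N)⁻¹ hζ
      (cuspSigma_T_smul_apply N)⟩⟩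

/-- the number of places of `F_N` over `j = ∞` is the number of `T`-orbits on the cosets,
i.e. the number of cusps -/
theorem card_fibre_infty :
    Nat.card (Fibre Kbar (jF N)⁻¹) = numOrbits (permOf N ModularGroup.T) := by
  have : FiniteDimensional Kbar⟮jF N⟯ (FN N) := (m9 N).2.1
  have hx := (m9 N).1
  exact ((cuspFibreInput N).card (Norm.transcendental_inv hx)
    (Norm.adjoin_simple_inv (jF N)).symm).trans (Comb.numOrbits_permOf N ModularGroup.T).symm

end

end Fermat.Agent.S24_helper62
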