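/-
T24 / M8 (helper62): the local datum at `j = ∞` for `F_N / ℚ̄(j)`.

`M = ℚ̄((t))`, `t = q^{1/N}`, embeddings `cuspSigma N q` (`q ∈ SL₂(ℤ) ⧸ Γ₀(N)`), local monodromy
`ρ = ` left multiplication by `T`, `τ = (t ↦ ζ⁻¹ t)`, `Ew = N`.
-/
import Fermat.Agent.S24_helper62.CuspEmb
import Fermat.Agent.S24.Interface

set_option autoImplicit false

noncomputable section

namespace Fermat.Agent.S24_helper62

open ModularCurve HahnSeries Fermat.Agent.S28 Fermat.Agent.S24
open scoped MatrixGroups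

section M8

variable (N : ℕ) [NeZero N]

/-- the order of `j(t^N)` is `-N` -/
theorem order_qExpand_jqModC : (qExpand Kbar N (jqModC Kbar)).order = -(N : ℤ) := by
  rw [← jCusp_one, jCusp_order]

theorem qExpand_jqModC_ne_zero : qExpand Kbar N (jqModC Kbar) ≠ 0 := by
  rw [← jCusp_one]
  exact jCusp_ne_zero _ _

/-- the order of `σ_q (j⁻¹)` is `N` -/
theorem order_cuspSigma_jF_inv (q : I0 N) : (cuspSigma N q (jF N)⁻¹).order = (N : ℤ) := by
  rw [map_inv₀, cuspSigma_jF]
  have h0 := qExpand_jqModC_ne_zero N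
  have h1 : (qExpand Kbar N (jqModC Kbar) * (qExpand Kbar N (jqModC Kbar))⁻¹).order = 0 := by
    rw [mul_inv_cancel₀ h0, HahnSeries.order_one]
  rw [HahnSeries.order_mul h0 (inv_ne_zero h0), order_qExpand_jqModC] at h1
  linarith

theorem orderOf_zetaBar_inv : orderOf (zetaBar N)⁻¹ = N := by
  rw [orderOf_inv]
  exact (zetaBar_isPrimitiveRoot N).eq_orderOf.symm

/-- the valued differential field structure on `ℚ̄((t))` -/
def laurentOrdBar : OrdField Kbar (LaurentSeries Kbar) :=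
  Fields.laurentOrdField Kbar (RingHom.id Kbar) (fun c => EvalBridge.algebraMap_laurent_eq_C c)

/-- **The local datum at `j = ∞`.** -/
def cuspLocalDatum : LocalDatum Kbar (jF N) (jF N)⁻¹ (I0 N) where
  M := LaurentSeries Kbar
  O := laurentOrdBar
  σ := cuspSigma N
  σ_inj := cuspSigma_injective N
  σ_x := fun i k => by rw [cuspSigma_jF, cuspSigma_jF]
  Ew := N
  Ew_pos := Nat.pos_of_ne_zero (NeZero.ne N)
  ord_s := fun i => order_cuspSigma_jF_inv N i
  ρ := permOf N ModularGroup.T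
  τ := Fields.scaleEquiv (zetaBar N)⁻¹
  ord_τ := fun a => Fields.order_scaleEquiv _ a
  σ_ρ := fun i f => cuspSigma_T_smul_apply N i f
  dvd_of_fixed := fun k a ha hfix =>
    Fields.dvd_order_of_fixed (zetaBar N)⁻¹ (Nat.pos_of_ne_zero (NeZero.ne N))
      (orderOf_zetaBar_inv N) k ha hfix

/-- **M8**: the local datum at `j = ∞`. -/
theorem m8 : Iface.M8 N := ⟨cuspLocalDatum N, rfl, rfl⟩

end M8

end Fermat.Agent.S24_helper62
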